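import Fermat.Agent.S52.TORS.Main
import Fermat.Agent.S52.HENSEL.Main
import Fermat.Agent.S52.LAU.Seams

/-!
# S52, cell [TORS-LAU], closed form

The two Hensel hypotheses of `TORS/Main.lean` are discharged by helper19's `s52k_splits`,
`s52k_sqrt`; the `12` roots of `ψ₅` in `Ω = ℚ̄((u))` are packaged as a `Finset`, stable under the
coefficientwise action `s52l_act` of `G_ℚ`, and the `24` integral points are permuted by `G_ℚ`
compatibly with reduction modulo `u`.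
-/

set_option autoImplicit false

open Polynomial WeierstrassCurve WeierstrassCurve.Affine Fermat.Agent.S13

namespace Fermat.Agent.S52

theorem s52e_splits_closed : s52e_Splits_stmt := fun f hl hs => s52k_splits f hl hs

theorem s52e_sqrt_closed : s52e_Sqrt_stmt := fun δ hδ => s52k_sqrt (by norm_num) δ hδ

/-- **[TORS-LAU]**, closed: the `24` integral points of order `5`. -/
theorem s52e_T_closed [DecidableEq s52e_Om] (a b : ℚ) (hΔ : a ^ 3 - b ^ 2 ≠ 0) :
    ∃ T : Finset (s52e_A × s52e_A), T.card = 24 ∧ (T : Set (s52e_A × s52e_A)) = s52e_T a b ∧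
      Set.InjOn (fun p : s52e_A × s52e_A =>
        (PowerSeries.constantCoeff p.1, PowerSeries.constantCoeff p.2)) (T : Set _) ∧
      ∀ P : (s52e_E a b).toAffine.Point, 5 • P = 0 → P = 0 ∨
        ∃ p ∈ T, ∃ h, P = Point.some (algebraMap s52e_A s52e_Om p.1)
          (algebraMap s52e_A s52e_Om p.2) h :=
  s52e_T_eq s52e_splits_closed s52e_sqrt_closed a b hΔ

/-- **[TORS-LAU]**, closed: `#𝓔_t(ℚ̄((u)))[5] = 25`. -/
theorem s52e_card_closed [DecidableEq s52e_Om] (a b : ℚ) (hΔ : a ^ 3 - b ^ 2 ≠ 0) :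
    Nat.card {P : (s52e_E a b).toAffine.Point // 5 • P = 0} = 25 :=
  s52e_card s52e_splits_closed s52e_sqrt_closed a b hΔ

/-! ### The coefficientwise Galois action -/

theorem s52e_EA_map_gamma (a b : ℚ) (γ : s52_G) :
    (s52e_EA a b).map (PowerSeries.map (γ : s52_Qb →+* s52_Qb)) = s52e_EA a b := by
  ext <;> simp [s52e_EA, WeierstrassCurve.map, map_ofNat]

theorem s52e_psi_map_gamma (a b : ℚ) (γ : s52_G) :
    (s52e_psi a b).map (PowerSeries.map (γ : s52_Qb →+* s52_Qb)) = s52e_psi a b := by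
  rw [s52e_psi, ldC_ldPoly_map, s52e_EA_map_gamma]

theorem s52e_f_gamma (a b : ℚ) (γ : s52_G) (φ : s52e_A) :
    PowerSeries.map (γ : s52_Qb →+* s52_Qb) (s52e_f a b φ) =
      s52e_f a b (PowerSeries.map (γ : s52_Qb →+* s52_Qb) φ) := by
  have h4 : PowerSeries.map (γ : s52_Qb →+* s52_Qb) (s52e_EA a b).a₄ = (s52e_EA a b).a₄ := by
    conv_rhs => rw [← s52e_EA_map_gamma a b γ]
    rfl
  have h6 : PowerSeries.map (γ : s52_Qb →+* s52_Qb) (s52e_EA a b).a₆ = (s52e_EA a b).a₆ := by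
    conv_rhs => rw [← s52e_EA_map_gamma a b γ]
    rfl
  simp only [s52e_f, map_add, map_mul, map_pow, h4, h6]

/-- `G_ℚ` permutes the `24` integral points of order `5`. -/
theorem s52e_T_gamma (a b : ℚ) (γ : s52_G) {p : s52e_A × s52e_A} (hp : p ∈ s52e_T a b) :
    (PowerSeries.map (γ : s52_Qb →+* s52_Qb) p.1, PowerSeries.map (γ : s52_Qb →+* s52_Qb) p.2) ∈
      s52e_T a b :=
  ⟨s52k_map_root _ _ (s52e_psi_map_gamma a b γ) _ hp.1, by
    show (PowerSeries.map (γ : s52_Qb →+* s52_Qb) p.2) ^ 2 = _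
    rw [← map_pow, hp.2, s52e_f_gamma]⟩

/-- The action on `Ω` restricts to the coefficientwise action on `ℚ̄⟦u⟧`. -/
theorem s52e_act_coe (γ : s52_G) (φ : s52e_A) :
    s52l_act γ (algebraMap s52e_A s52e_Om φ) =
      algebraMap s52e_A s52e_Om (PowerSeries.map (γ : s52_Qb →+* s52_Qb) φ) := by
  ext n
  rw [s52l_act_coeff, LaurentSeries.coe_algebraMap]
  change γ (HahnSeries.coeff ((φ : s52e_A) : s52e_Om) n) =
    HahnSeries.coeff ((PowerSeries.map (γ : s52_Qb →+* s52_Qb) φ : s52e_A) : s52e_Om) n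
  rw [PowerSeries.coeff_coe, PowerSeries.coeff_coe]
  split_ifs
  · simp
  · simp

/-- Reduction modulo `u` is equivariant. -/
theorem s52e_cc_gamma (γ : s52_G) (φ : s52e_A) :
    PowerSeries.constantCoeff (PowerSeries.map (γ : s52_Qb →+* s52_Qb) φ) =
      γ (PowerSeries.constantCoeff φ) := by
  rw [← PowerSeries.coeff_zero_eq_constantCoeff_apply, PowerSeries.coeff_map,
    PowerSeries.coeff_zero_eq_constantCoeff_apply]
  rfl

/-! ### The `12` roots of `ψ₅` in `Ω` -/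

/-- The `x`-coordinates of the nonzero points of order `5` of `𝓔_t` in `ℚ̄((u))`. -/
noncomputable def s52e_R (a b : ℚ) : Finset s52e_Om := by
  classical
  exact ((s52e_psi a b).map (algebraMap s52e_A s52e_Om)).roots.toFinset

theorem s52e_psi_mapOm_ne (a b : ℚ) : (s52e_psi a b).map (algebraMap s52e_A s52e_Om) ≠ 0 := by
  rw [Ne, Polynomial.map_eq_zero_iff s52e_iota_injective]
  exact (ldC_natDegree (s52e_EA a b) 2).2

theorem s52e_mem_R (a b : ℚ) (x : s52e_Om) :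
    x ∈ s52e_R a b ↔ (ldC (ldPoly (s52e_E a b)) 2).eval x = 0 := by
  classical
  rw [s52e_R, Multiset.mem_toFinset, mem_roots (s52e_psi_mapOm_ne a b), IsRoot, s52e_psi_mapOm]

theorem s52e_mem_R_iff (a b : ℚ) (hΔ : a ^ 3 - b ^ 2 ≠ 0) (x : s52e_Om) :
    x ∈ s52e_R a b ↔ ∃ φ : s52e_A, (s52e_psi a b).eval φ = 0 ∧ algebraMap s52e_A s52e_Om φ = x := by
  classical
  rw [s52e_R, Multiset.mem_toFinset, mem_roots (s52e_psi_mapOm_ne a b), IsRoot]
  constructor
  · intro hx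
    exact s52k_root_mem _ (s52e_psi_lead_unit a b) (s52e_psi_sep a b hΔ) _ s52e_iota_injective x hx
  · rintro ⟨φ, hφ, rfl⟩
    rw [eval_map_apply, hφ, map_zero]

/-- `ψ₅` splits over `ℚ̄((u))` with the `12` simple roots `s52e_R`. -/
theorem s52e_R_spec (a b : ℚ) (hΔ : a ^ 3 - b ^ 2 ≠ 0) :
    (s52e_R a b).card = 12 ∧
      (s52e_psi a b).map (algebraMap s52e_A s52e_Om) =
        C (-5 : s52e_Om) * ∏ r ∈ s52e_R a b, (X - C r) := by
  classical
  obtain ⟨R, hRcard, hfac, -⟩ :=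
    s52k_splits (s52e_psi a b) (s52e_psi_lead_unit a b) (s52e_psi_sep a b hΔ)
  have hRroot : ∀ φ ∈ R, (s52e_psi a b).eval φ = 0 := by
    intro φ hφ
    rw [hfac, eval_mul, eval_prod, Finset.prod_eq_zero hφ (by simp), mul_zero]
  have himg : s52e_R a b = R.image (algebraMap s52e_A s52e_Om) := by
    ext x
    rw [s52e_mem_R_iff a b hΔ, Finset.mem_image]
    constructor
    · rintro ⟨φ, hφ, rfl⟩
      refine ⟨φ, ?_, rfl⟩
      rw [hfac, eval_mul, eval_prod, eval_C] at hφ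
      have hl : (s52e_psi a b).leadingCoeff ≠ 0 := (s52e_psi_lead_unit a b).ne_zero
      obtain ⟨ψ', hψ', hz⟩ := Finset.prod_eq_zero_iff.mp ((mul_eq_zero.mp hφ).resolve_left hl)
      rw [eval_sub, eval_X, eval_C, sub_eq_zero] at hz
      rw [hz]; exact hψ'
    · rintro ⟨φ, hφ, rfl⟩
      exact ⟨φ, hRroot φ hφ, rfl⟩
  refine ⟨?_, ?_⟩
  · rw [himg, Finset.card_image_of_injective _ s52e_iota_injective, hRcard, s52e_psi_natDegree]
  · rw [himg, Finset.prod_image (fun x _ y _ h => s52e_iota_injective h)]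
    conv_lhs => rw [hfac]
    rw [Polynomial.map_mul, Polynomial.map_C, Polynomial.map_prod, s52e_psi_lead]
    congr 1
    · rw [map_neg, map_ofNat]
    · refine Finset.prod_congr rfl (fun φ _ => ?_)
      rw [Polynomial.map_sub, Polynomial.map_X, Polynomial.map_C]

/-- `G_ℚ` permutes the `12` roots. -/
theorem s52e_R_stable (a b : ℚ) (hΔ : a ^ 3 - b ^ 2 ≠ 0) (γ : s52_G) {x : s52e_Om}
    (hx : x ∈ s52e_R a b) : s52l_act γ x ∈ s52e_R a b := by
  obtain ⟨φ, hφ, rfl⟩ := (s52e_mem_R_iff a b hΔ x).mp hx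
  rw [s52e_act_coe]
  exact (s52e_mem_R_iff a b hΔ _).mpr
    ⟨_, s52k_map_root _ _ (s52e_psi_map_gamma a b γ) _ hφ, rfl⟩

/-- Every root is the `x`-coordinate of a point of order `5` of `𝓔_t(ℚ̄((u)))`, whose
`y`-coordinate is a unit of `ℚ̄⟦u⟧`. -/
theorem s52e_R_point [DecidableEq s52e_Om] (a b : ℚ) (hΔ : a ^ 3 - b ^ 2 ≠ 0) {x : s52e_Om}
    (hx : x ∈ s52e_R a b) :
    ∃ p ∈ s52e_T a b, algebraMap s52e_A s52e_Om p.1 = x := by
  obtain ⟨φ, hφ, rfl⟩ := (s52e_mem_R_iff a b hΔ x).mp hx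
  obtain ⟨η, hη⟩ := s52e_sqrt_closed _ (s52e_f_unit a b hΔ φ hφ)
  exact ⟨(φ, η), ⟨hφ, hη⟩, rfl⟩

/-! ### The polynomial form over `ℚ̄[t]`, `t = 1 + u` -/

/-- `t = 1 + u ∈ Ω` -/
noncomputable def s52e_t : s52e_Om := 1 + s52l_u

/-- The pencil over the polynomial ring `ℚ̄[t]`. -/
noncomputable def s52e_EP (a b : ℚ) : WeierstrassCurve (Polynomial s52_Qb) :=
  ⟨0, 0, 0, -27 * C (algebraMap ℚ s52_Qb a) * X, -54 * C (algebraMap ℚ s52_Qb b) * X⟩

/-- `ψ₅` of the pencil, with coefficients in `ℚ̄[t]`. -/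
noncomputable def s52e_psiP (a b : ℚ) : Polynomial (Polynomial s52_Qb) :=
  ldC (ldPoly (s52e_EP a b)) 2

theorem s52e_iota_X : algebraMap s52e_A s52e_Om (PowerSeries.X) = s52l_u := by
  rw [LaurentSeries.coe_algebraMap]
  exact PowerSeries.coe_X

theorem s52e_EP_map (a b : ℚ) :
    (s52e_EP a b).map (aeval s52e_t : Polynomial s52_Qb →ₐ[s52_Qb] s52e_Om).toRingHom =
      s52e_E a b := by
  ext <;>
    simp [s52e_EP, s52e_E, s52e_EA, WeierstrassCurve.map, map_ofNat, s52e_t, s52l_u]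

theorem s52e_psiP_map (a b : ℚ) :
    (s52e_psiP a b).map (aeval s52e_t : Polynomial s52_Qb →ₐ[s52_Qb] s52e_Om).toRingHom =
      ldC (ldPoly (s52e_E a b)) 2 := by
  rw [s52e_psiP, ldC_ldPoly_map, s52e_EP_map]

/-- The factorisation of `ψ₅ ∈ ℚ̄[t][X]` over `Ω` (input of [FBAR]). -/
theorem s52e_psiP_factor (a b : ℚ) (hΔ : a ^ 3 - b ^ 2 ≠ 0) :
    (s52e_psiP a b).map (aeval s52e_t : Polynomial s52_Qb →ₐ[s52_Qb] s52e_Om).toRingHom =
      C (-5 : s52e_Om) * ∏ r ∈ s52e_R a b, (X - C r) := by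
  rw [s52e_psiP_map, ← s52e_psi_mapOm]
  exact (s52e_R_spec a b hΔ).2

end Fermat.Agent.S52
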