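import Mathlib
import Fermat.Agent.S52.Seams
import Fermat.Agent.S13.Ladder.Vieta
import Fermat.Agent.S13.Ladder.Integral

/-!
# S52, cell [TORS-LAU]: the `5`-torsion of the pencil `𝓔_t` over `ℚ̄((u))`

`𝓔_t : y² = x³ - 27 a t x - 54 b t`, `t = 1 + u`, over `A = ℚ̄⟦u⟧ ⊂ Ω = ℚ̄((u))`.  The fibre at
`u = 0` is `E : y² = x³ - 27 a x - 54 b`.  Using Hensel's lemma in `A` (as hypotheses
`s52e_Splits_stmt`, `s52e_Sqrt_stmt`: helper19's `s52k_splits`, `s52k_sqrt`) and the division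
polynomial ladder of S13 we show that all `25` points of `𝓔[5]` are rational over `Ω`, integral,
with unit `y`-coordinate, and pairwise distinct modulo `u`.
-/

set_option autoImplicit false

open Polynomial WeierstrassCurve WeierstrassCurve.Affine Fermat.Agent.S13

namespace Fermat.Agent.S52

/-- `ℚ̄⟦u⟧` -/
abbrev s52e_A : Type := PowerSeries s52_Qb

/-- `ℚ̄((u))` -/
abbrev s52e_Om : Type := LaurentSeries s52_Qb

/-- Hensel in `ℚ̄⟦u⟧`: a polynomial with unit leading coefficient and separable reduction splits,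
with roots distinct modulo `u`. -/
def s52e_Splits_stmt : Prop :=
  ∀ f : Polynomial s52e_A, IsUnit f.leadingCoeff →
    (f.map PowerSeries.constantCoeff).Separable →
    ∃ R : Finset s52e_A, R.card = f.natDegree ∧
      f = C f.leadingCoeff * ∏ φ ∈ R, (X - C φ) ∧
      Set.InjOn (PowerSeries.constantCoeff (R := s52_Qb)) (R : Set s52e_A)

/-- Square roots of units of `ℚ̄⟦u⟧`. -/
def s52e_Sqrt_stmt : Prop :=
  ∀ δ : s52e_A, PowerSeries.constantCoeff δ ≠ 0 → ∃ η : s52e_A, η ^ 2 = δ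

/-- The pencil `𝓔_t` over `ℚ̄⟦u⟧`, `t = 1 + u`. -/
noncomputable def s52e_EA (a b : ℚ) : WeierstrassCurve s52e_A :=
  ⟨0, 0, 0, -27 * PowerSeries.C (algebraMap ℚ s52_Qb a) * (1 + PowerSeries.X),
    -54 * PowerSeries.C (algebraMap ℚ s52_Qb b) * (1 + PowerSeries.X)⟩

/-- The pencil over `ℚ̄((u))`. -/
noncomputable def s52e_E (a b : ℚ) : WeierstrassCurve s52e_Om :=
  (s52e_EA a b).map (algebraMap s52e_A s52e_Om)

/-- The fibre at `u = 0`, over `ℚ̄`. -/
noncomputable def s52e_E0 (a b : ℚ) : WeierstrassCurve s52_Qb :=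
  ⟨0, 0, 0, -27 * algebraMap ℚ s52_Qb a, -54 * algebraMap ℚ s52_Qb b⟩

theorem s52e_EA_map (a b : ℚ) :
    (s52e_EA a b).map PowerSeries.constantCoeff = s52e_E0 a b := by
  ext <;> simp [s52e_EA, s52e_E0, WeierstrassCurve.map, map_ofNat]

theorem s52e_E0_Δ (a b : ℚ) :
    (s52e_E0 a b).Δ = 1259712 * algebraMap ℚ s52_Qb (a ^ 3 - b ^ 2) := by
  simp only [s52e_E0, WeierstrassCurve.Δ, WeierstrassCurve.b₂, WeierstrassCurve.b₄,
    WeierstrassCurve.b₆, WeierstrassCurve.b₈, map_sub, map_pow]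
  ring

theorem s52e_E0_Δ_ne (a b : ℚ) (hΔ : a ^ 3 - b ^ 2 ≠ 0) : (s52e_E0 a b).Δ ≠ 0 := by
  rw [s52e_E0_Δ]
  refine mul_ne_zero (by norm_num) ?_
  exact (map_ne_zero_iff _ (algebraMap ℚ s52_Qb).injective).mpr hΔ

instance s52e_charZero : CharZero s52e_A :=
  charZero_of_injective_ringHom (f := (PowerSeries.C : s52_Qb →+* s52e_A)) PowerSeries.C_injective

/-- The `5`-division polynomial of `𝓔_t` over `ℚ̄⟦u⟧`. -/
noncomputable def s52e_psi (a b : ℚ) : Polynomial s52e_A := ldC (ldPoly (s52e_EA a b)) 2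

theorem s52e_psi_map0 (a b : ℚ) :
    (s52e_psi a b).map PowerSeries.constantCoeff = ldC (ldPoly (s52e_E0 a b)) 2 := by
  rw [s52e_psi, ldC_ldPoly_map, s52e_EA_map]

theorem s52e_psi_mapOm (a b : ℚ) :
    (s52e_psi a b).map (algebraMap s52e_A s52e_Om) = ldC (ldPoly (s52e_E a b)) 2 :=
  ldC_ldPoly_map _ _ _

theorem s52e_psi_natDegree (a b : ℚ) : (s52e_psi a b).natDegree = 12 :=
  (ldC_natDegree (s52e_EA a b) 2).1

theorem s52e_psi_lead (a b : ℚ) : (s52e_psi a b).leadingCoeff = -5 := by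
  rw [leadingCoeff, s52e_psi_natDegree]
  have h := (ldC_top (s52e_EA a b) 2).top
  norm_num at h
  exact h

theorem s52e_psi_lead_unit (a b : ℚ) : IsUnit (s52e_psi a b).leadingCoeff := by
  rw [s52e_psi_lead]
  have h5 : IsUnit (5 : s52e_A) := by
    have : (5 : s52e_A) = PowerSeries.C (5 : s52_Qb) := by simp [map_ofNat]
    rw [this]
    exact (IsUnit.mk0 (5 : s52_Qb) (by norm_num)).map PowerSeries.C
  exact h5.neg

theorem s52e_psi_sep (a b : ℚ) (hΔ : a ^ 3 - b ^ 2 ≠ 0) :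
    ((s52e_psi a b).map PowerSeries.constantCoeff).Separable := by
  classical
  rw [s52e_psi_map0]
  have h := ldC_roots_nodup (W := s52e_E0 a b) (s52e_E0_Δ_ne a b hΔ) 2
  exact (nodup_roots_iff_of_splits (ldC_natDegree (s52e_E0 a b) 2).2
    (IsAlgClosed.splits _)).mp h.1

/-- The cubic `x³ + a₄ x + a₆` of `𝓔_t`. -/
noncomputable def s52e_f (a b : ℚ) (φ : s52e_A) : s52e_A :=
  φ ^ 3 + (s52e_EA a b).a₄ * φ + (s52e_EA a b).a₆

theorem s52e_equation_iff (a b : ℚ) (x y : s52e_A) :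
    (s52e_EA a b).toAffine.Equation x y ↔ y ^ 2 = s52e_f a b x := by
  rw [Affine.equation_iff]
  simp [s52e_EA, s52e_f]

theorem s52e_equation0_iff (a b : ℚ) (x y : s52_Qb) :
    (s52e_E0 a b).toAffine.Equation x y ↔
      y ^ 2 = x ^ 3 + (s52e_E0 a b).a₄ * x + (s52e_E0 a b).a₆ := by
  rw [Affine.equation_iff]
  simp [s52e_E0]

theorem s52e_equationOm_iff (a b : ℚ) (x y : s52e_Om) :
    (s52e_E a b).toAffine.Equation x y ↔
      y ^ 2 = x ^ 3 + algebraMap s52e_A s52e_Om (s52e_EA a b).a₄ * x +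
        algebraMap s52e_A s52e_Om (s52e_EA a b).a₆ := by
  rw [Affine.equation_iff]
  simp [s52e_E, s52e_EA, WeierstrassCurve.map]

/-- A root of `ψ₅` in `ℚ̄⟦u⟧` is not the `x`-coordinate of a `2`-torsion point modulo `u`. -/
theorem s52e_f_unit (a b : ℚ) (hΔ : a ^ 3 - b ^ 2 ≠ 0) (φ : s52e_A)
    (hφ : (s52e_psi a b).eval φ = 0) : PowerSeries.constantCoeff (s52e_f a b φ) ≠ 0 := by
  classical
  intro h0
  set x₀ : s52_Qb := PowerSeries.constantCoeff φ with hx₀
  have hroot : (ldC (ldPoly (s52e_E0 a b)) 2).eval x₀ = 0 := by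
    rw [← s52e_psi_map0, hx₀, eval_map_apply, hφ, map_zero]
  have heq : (s52e_E0 a b).toAffine.Equation x₀ 0 := by
    rw [s52e_equation0_iff]
    have := h0
    simp only [s52e_f, map_add, map_mul, map_pow, ← s52e_EA_map] at this ⊢
    simpa [WeierstrassCurve.map] using this.symm
  have hns : (s52e_E0 a b).toAffine.Nonsingular x₀ 0 :=
    (Affine.equation_iff_nonsingular_of_Δ_ne_zero (s52e_E0_Δ_ne a b hΔ)).mp heq
  have h5 : (2 * 2 + 1) • Point.some x₀ 0 hns = 0 :=
    (ld_odd_nsmul_eq_zero_iff hns 2).mpr hroot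
  have hneg : -Point.some x₀ 0 hns = Point.some x₀ 0 hns := by
    rw [Point.neg_some]
    congr 1
    simp [Affine.negY, s52e_E0]
  have h2 : Point.some x₀ 0 hns + Point.some x₀ 0 hns = 0 := by
    rw [← neg_eq_iff_add_eq_zero]; exact hneg
  have h5' : (2 * 2 + 1) • Point.some x₀ 0 hns =
      (Point.some x₀ 0 hns + Point.some x₀ 0 hns) +
        (Point.some x₀ 0 hns + Point.some x₀ 0 hns) + Point.some x₀ 0 hns := by
    simp only [succ_nsmul, zero_nsmul, Nat.reduceMul, Nat.reduceAdd]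
    abel
  rw [h5', h2, zero_add, zero_add] at h5
  exact Point.some_ne_zero _ h5

theorem s52e_iota_injective : Function.Injective (algebraMap s52e_A s52e_Om) :=
  IsFractionRing.injective s52e_A s52e_Om

/-- **[TORS-LAU]**: all `25` points of `𝓔_t[5]` are rational over `ℚ̄((u))`, integral, with unit
`y`-coordinate, and pairwise distinct modulo `u`. -/
theorem s52e_main [DecidableEq s52e_Om] (hS : s52e_Splits_stmt) (hQ : s52e_Sqrt_stmt) (a b : ℚ)
    (hΔ : a ^ 3 - b ^ 2 ≠ 0) :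
    ∃ T : Finset (s52e_A × s52e_A), T.card = 24 ∧
      (∀ p ∈ T, (s52e_EA a b).toAffine.Equation p.1 p.2 ∧ IsUnit p.2 ∧
        (s52e_psi a b).eval p.1 = 0) ∧
      Set.InjOn (fun p : s52e_A × s52e_A =>
        (PowerSeries.constantCoeff p.1, PowerSeries.constantCoeff p.2)) (T : Set _) ∧
      ∀ P : (s52e_E a b).toAffine.Point, 5 • P = 0 → P = 0 ∨
        ∃ p ∈ T, ∃ h, P = Point.some (algebraMap s52e_A s52e_Om p.1)
          (algebraMap s52e_A s52e_Om p.2) h := by
  classical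
  obtain ⟨R, hRcard, hfac, hinj⟩ := hS (s52e_psi a b) (s52e_psi_lead_unit a b) (s52e_psi_sep a b hΔ)
  have hRroot : ∀ φ ∈ R, (s52e_psi a b).eval φ = 0 := by
    intro φ hφ
    rw [hfac, eval_mul, eval_prod, Finset.prod_eq_zero hφ (by simp), mul_zero]
  have hη : ∀ φ : s52e_A, ∃ η : s52e_A, φ ∈ R → η ^ 2 = s52e_f a b φ := by
    intro φ
    by_cases h : φ ∈ R
    · obtain ⟨η, hη⟩ := hQ _ (s52e_f_unit a b hΔ φ (hRroot φ h))
      exact ⟨η, fun _ => hη⟩
    · exact ⟨0, fun h' => absurd h' h⟩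
  choose η hη using hη
  have hηcc : ∀ φ ∈ R, PowerSeries.constantCoeff (η φ) ≠ 0 := by
    intro φ hφ h0
    apply s52e_f_unit a b hΔ φ (hRroot φ hφ)
    rw [← hη φ hφ, map_pow, h0]
    simp
  have h2 : (2 : s52_Qb) ≠ 0 := by norm_num
  have hdisj : Disjoint (R.image fun φ => (φ, η φ)) (R.image fun φ => (φ, -η φ)) := by
    rw [Finset.disjoint_left]
    intro p hp hp'
    obtain ⟨φ, hφ, rfl⟩ := Finset.mem_image.mp hp
    obtain ⟨φ', hφ', he⟩ := Finset.mem_image.mp hp'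
    have e1 : φ' = φ := (Prod.ext_iff.mp he).1
    have e2 : -η φ' = η φ := (Prod.ext_iff.mp he).2
    rw [e1] at e2
    have : PowerSeries.constantCoeff (η φ) = 0 := by
      have h3 := congrArg (PowerSeries.constantCoeff (R := s52_Qb)) e2
      rw [map_neg] at h3
      have h4 : (2 : s52_Qb) * PowerSeries.constantCoeff (η φ) = 0 := by linear_combination -h3
      exact (mul_eq_zero.mp h4).resolve_left h2
    exact hηcc φ hφ this
  have hcard1 : (R.image fun φ => (φ, η φ)).card = 12 := by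
    rw [Finset.card_image_of_injective _ (fun x y h => (Prod.ext_iff.mp h).1), hRcard,
      s52e_psi_natDegree]
  have hcard2 : (R.image fun φ => (φ, -η φ)).card = 12 := by
    rw [Finset.card_image_of_injective _ (fun x y h => (Prod.ext_iff.mp h).1), hRcard,
      s52e_psi_natDegree]
  refine ⟨(R.image fun φ => (φ, η φ)) ∪ (R.image fun φ => (φ, -η φ)), ?_, ?_, ?_, ?_⟩
  · rw [Finset.card_union_of_disjoint hdisj, hcard1, hcard2]
  · intro p hp
    rcases Finset.mem_union.mp hp with hp | hp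
    · obtain ⟨φ, hφ, rfl⟩ := Finset.mem_image.mp hp
      refine ⟨(s52e_equation_iff a b _ _).mpr (hη φ hφ), ?_, hRroot φ hφ⟩
      exact PowerSeries.isUnit_iff_constantCoeff.mpr (IsUnit.mk0 _ (hηcc φ hφ))
    · obtain ⟨φ, hφ, rfl⟩ := Finset.mem_image.mp hp
      refine ⟨(s52e_equation_iff a b _ _).mpr (by rw [neg_sq]; exact hη φ hφ), ?_, hRroot φ hφ⟩
      exact (PowerSeries.isUnit_iff_constantCoeff.mpr (IsUnit.mk0 _ (hηcc φ hφ))).neg
  · -- distinct modulo `u`
    have key : ∀ φ ∈ R, ∀ φ' ∈ R, ∀ ε ε' : s52e_A, (ε = η φ ∨ ε = -η φ) → (ε' = η φ' ∨ ε' = -η φ') →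
        PowerSeries.constantCoeff φ = PowerSeries.constantCoeff φ' →
        PowerSeries.constantCoeff ε = PowerSeries.constantCoeff ε' → (φ, ε) = (φ', ε') := by
      intro φ hφ φ' hφ' ε ε' hε hε' h1 h3
      have e1 : φ = φ' := hinj hφ hφ' h1
      subst e1
      rcases hε with rfl | rfl <;> rcases hε' with rfl | rfl
      · rfl
      · exfalso
        rw [map_neg] at h3
        have h4 : (2 : s52_Qb) * PowerSeries.constantCoeff (η φ) = 0 := by linear_combination h3
        exact hηcc φ hφ ((mul_eq_zero.mp h4).resolve_left h2)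
      · exfalso
        rw [map_neg] at h3
        have h4 : (2 : s52_Qb) * PowerSeries.constantCoeff (η φ) = 0 := by linear_combination -h3
        exact hηcc φ hφ ((mul_eq_zero.mp h4).resolve_left h2)
      · rfl
    have hmem : ∀ p ∈ ((R.image fun φ => (φ, η φ)) ∪ (R.image fun φ => (φ, -η φ))),
        p.1 ∈ R ∧ (p.2 = η p.1 ∨ p.2 = -η p.1) := by
      intro p hp
      rcases Finset.mem_union.mp hp with hp | hp
      · obtain ⟨φ, hφ, rfl⟩ := Finset.mem_image.mp hp
        exact ⟨hφ, Or.inl rfl⟩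
      · obtain ⟨φ, hφ, rfl⟩ := Finset.mem_image.mp hp
        exact ⟨hφ, Or.inr rfl⟩
    intro p hp q hq hpq
    obtain ⟨hp1, hp2⟩ := hmem p (Finset.mem_coe.mp hp)
    obtain ⟨hq1, hq2⟩ := hmem q (Finset.mem_coe.mp hq)
    have := key p.1 hp1 q.1 hq1 p.2 q.2 hp2 hq2 (Prod.ext_iff.mp hpq).1 (Prod.ext_iff.mp hpq).2
    exact this
  · -- every point of order `5` over `ℚ̄((u))` is one of these
    intro P hP
    rcases P with _ | ⟨x, y, h⟩
    · exact Or.inl rfl
    · right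
      have hx : (ldC (ldPoly (s52e_E a b)) 2).eval x = 0 :=
        (ld_odd_nsmul_eq_zero_iff h 2).mp hP
      rw [← s52e_psi_mapOm, hfac, Polynomial.map_mul, Polynomial.map_C, Polynomial.map_prod,
        eval_mul, eval_C, eval_prod] at hx
      have hlc : algebraMap s52e_A s52e_Om (s52e_psi a b).leadingCoeff ≠ 0 := by
        intro h0
        have := s52e_iota_injective (h0.trans (map_zero _).symm)
        exact (s52e_psi_lead_unit a b).ne_zero this
      obtain ⟨φ, hφ, hφx⟩ := Finset.prod_eq_zero_iff.mp ((mul_eq_zero.mp hx).resolve_left hlc)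
      rw [Polynomial.map_sub, Polynomial.map_X, Polynomial.map_C, eval_sub, eval_X, eval_C,
        sub_eq_zero] at hφx
      have heq := (s52e_equationOm_iff a b x y).mp h.1
      have hy : y ^ 2 = (algebraMap s52e_A s52e_Om (η φ)) ^ 2 := by
        rw [heq, hφx, ← map_pow (algebraMap s52e_A s52e_Om) (η φ) 2, hη φ hφ, s52e_f]
        simp only [map_add, map_mul, map_pow]
      have hy' : (y - algebraMap s52e_A s52e_Om (η φ)) * (y + algebraMap s52e_A s52e_Om (η φ)) = 0 := by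
        linear_combination hy
      rcases mul_eq_zero.mp hy' with hy1 | hy1
      · refine ⟨(φ, η φ), Finset.mem_union_left _ (Finset.mem_image_of_mem _ hφ), ?_⟩
        have hyv : y = algebraMap s52e_A s52e_Om (η φ) := sub_eq_zero.mp hy1
        subst hφx
        subst hyv
        exact ⟨h, rfl⟩
      · refine ⟨(φ, -η φ), Finset.mem_union_right _ (Finset.mem_image_of_mem _ hφ), ?_⟩
        have hyv : y = algebraMap s52e_A s52e_Om (-η φ) := by
          rw [map_neg]; exact eq_neg_of_add_eq_zero_left hy1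
        subst hφx
        subst hyv
        exact ⟨h, rfl⟩

theorem s52e_EA_Δ_ne (a b : ℚ) (hΔ : a ^ 3 - b ^ 2 ≠ 0) : (s52e_EA a b).Δ ≠ 0 := by
  intro h0
  have := congrArg (PowerSeries.constantCoeff (R := s52_Qb)) h0
  rw [← WeierstrassCurve.map_Δ, s52e_EA_map, map_zero] at this
  exact s52e_E0_Δ_ne a b hΔ this

theorem s52e_E_Δ_ne (a b : ℚ) (hΔ : a ^ 3 - b ^ 2 ≠ 0) : (s52e_E a b).Δ ≠ 0 := by
  rw [s52e_E, WeierstrassCurve.map_Δ]
  intro h0
  exact s52e_EA_Δ_ne a b hΔ (s52e_iota_injective (h0.trans (map_zero _).symm))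

/-- The canonical set of the `24` integral points of order `5`. -/
def s52e_T (a b : ℚ) : Set (s52e_A × s52e_A) :=
  {p | (s52e_psi a b).eval p.1 = 0 ∧ p.2 ^ 2 = s52e_f a b p.1}

/-- The point of `𝓔(ℚ̄((u)))` attached to an element of `s52e_T`. -/
theorem s52e_T_nonsingular (a b : ℚ) (hΔ : a ^ 3 - b ^ 2 ≠ 0) {p : s52e_A × s52e_A}
    (hp : p ∈ s52e_T a b) :
    (s52e_E a b).toAffine.Nonsingular (algebraMap s52e_A s52e_Om p.1)
      (algebraMap s52e_A s52e_Om p.2) := by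
  refine (Affine.equation_iff_nonsingular_of_Δ_ne_zero (s52e_E_Δ_ne a b hΔ)).mp ?_
  rw [s52e_equationOm_iff, ← map_pow, hp.2, s52e_f]
  simp only [map_add, map_mul, map_pow]

theorem s52e_T_torsion [DecidableEq s52e_Om] (a b : ℚ) (hΔ : a ^ 3 - b ^ 2 ≠ 0)
    {p : s52e_A × s52e_A} (hp : p ∈ s52e_T a b) :
    5 • Point.some _ _ (s52e_T_nonsingular a b hΔ hp) = 0 := by
  refine (ld_odd_nsmul_eq_zero_iff (s52e_T_nonsingular a b hΔ hp) 2).mpr ?_
  rw [← s52e_psi_mapOm, eval_map_apply, hp.1, map_zero]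

theorem s52e_T_unit (a b : ℚ) (hΔ : a ^ 3 - b ^ 2 ≠ 0) {p : s52e_A × s52e_A}
    (hp : p ∈ s52e_T a b) : IsUnit p.2 := by
  have h1 := s52e_f_unit a b hΔ p.1 hp.1
  rw [← hp.2, map_pow] at h1
  exact PowerSeries.isUnit_iff_constantCoeff.mpr (IsUnit.mk0 _ (fun h0 => h1 (by rw [h0]; simp)))

/-- The canonical set coincides with the finite set of `s52e_main`. -/
theorem s52e_T_eq [DecidableEq s52e_Om] (hS : s52e_Splits_stmt) (hQ : s52e_Sqrt_stmt) (a b : ℚ)
    (hΔ : a ^ 3 - b ^ 2 ≠ 0) :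
    ∃ T : Finset (s52e_A × s52e_A), T.card = 24 ∧ (T : Set (s52e_A × s52e_A)) = s52e_T a b ∧
      Set.InjOn (fun p : s52e_A × s52e_A =>
        (PowerSeries.constantCoeff p.1, PowerSeries.constantCoeff p.2)) (T : Set _) ∧
      ∀ P : (s52e_E a b).toAffine.Point, 5 • P = 0 → P = 0 ∨
        ∃ p ∈ T, ∃ h, P = Point.some (algebraMap s52e_A s52e_Om p.1)
          (algebraMap s52e_A s52e_Om p.2) h := by
  obtain ⟨T, hcard, hT, hinj, hall⟩ := s52e_main hS hQ a b hΔ
  refine ⟨T, hcard, ?_, hinj, hall⟩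
  ext p
  constructor
  · intro hp
    obtain ⟨h1, -, h3⟩ := hT p (Finset.mem_coe.mp hp)
    exact ⟨h3, (s52e_equation_iff a b _ _).mp h1⟩
  · intro hp
    rcases hall _ (s52e_T_torsion a b hΔ hp) with h0 | ⟨q, hq, h, hPq⟩
    · exact absurd h0 (Point.some_ne_zero _)
    · rw [Point.some.injEq] at hPq
      have e1 : p.1 = q.1 := s52e_iota_injective hPq.1
      have e2 : p.2 = q.2 := s52e_iota_injective hPq.2
      have : p = q := Prod.ext e1 e2
      rw [this]
      exact Finset.mem_coe.mpr hq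

/-- `𝓔_t` has exactly `25` points of order dividing `5` over `ℚ̄((u))`. -/
theorem s52e_card [DecidableEq s52e_Om] (hS : s52e_Splits_stmt) (hQ : s52e_Sqrt_stmt) (a b : ℚ)
    (hΔ : a ^ 3 - b ^ 2 ≠ 0) :
    Nat.card {P : (s52e_E a b).toAffine.Point // 5 • P = 0} = 25 := by
  classical
  obtain ⟨T, hcard, hTeq, -, hall⟩ := s52e_T_eq hS hQ a b hΔ
  have hmemT : ∀ p ∈ T, p ∈ s52e_T a b := fun p hp => hTeq ▸ Finset.mem_coe.mpr hp
  let pt : {p // p ∈ T} → (s52e_E a b).toAffine.Point := fun p =>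
    Point.some _ _ (s52e_T_nonsingular a b hΔ (hmemT p.1 p.2))
  have hpt_inj : Function.Injective pt := by
    intro p q hpq
    simp only [pt, Point.some.injEq] at hpq
    exact Subtype.ext (Prod.ext (s52e_iota_injective hpq.1) (s52e_iota_injective hpq.2))
  have hset : {P : (s52e_E a b).toAffine.Point | 5 • P = 0} = insert 0 (Set.range pt) := by
    ext P
    simp only [Set.mem_ofPred_eq, Set.mem_insert_iff, Set.mem_range]
    constructor
    · intro hP
      rcases hall P hP with h0 | ⟨p, hp, h, hPp⟩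
      · exact Or.inl h0
      · exact Or.inr ⟨⟨p, hp⟩, hPp.symm⟩
    · rintro (rfl | ⟨p, rfl⟩)
      · simp
      · exact s52e_T_torsion a b hΔ (hmemT p.1 p.2)
  have h0 : (0 : (s52e_E a b).toAffine.Point) ∉ Set.range pt := by
    rintro ⟨p, hp⟩
    exact Point.some_ne_zero _ hp
  have hfin : (Set.range pt).Finite := Set.finite_range pt
  have hr : (Set.range pt).ncard = 24 := by
    rw [Set.ncard_range_of_injective hpt_inj]
    simp [hcard]
  show Nat.card {P : (s52e_E a b).toAffine.Point | 5 • P = 0} = 25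
  rw [Nat.card_coe_set_eq, hset, Set.ncard_insert_of_notMem h0 hfin, hr]

end Fermat.Agent.S52
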